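import Fermat.Agent.S27.E.General

/-!
# S27, block [E]: residuation and injectivity of the chart map (final statements)
-/

set_option autoImplicit false

namespace Fermat.Agent.S27

open AlgebraicCurve Fermat.Agent.S24.FF Topology Filter Metric

variable {F : Type*} [Field F] [Algebra ℂ F] [IsFF1 ℂ F]

/-- the continuous linear map `(u₁, u₂) ↦ Sum.elim u₁ u₂`. -/
noncomputable def sumElimL (g : ℕ) : (Fin g → ℂ) × (Fin g → ℂ) →L[ℂ] (Fin g ⊕ Fin g → ℂ) :=
  ContinuousLinearMap.pi (Sum.elim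
    (fun i => (ContinuousLinearMap.proj i).comp (ContinuousLinearMap.fst ℂ _ _))
    (fun i => (ContinuousLinearMap.proj i).comp (ContinuousLinearMap.snd ℂ _ _)))

theorem sumElimL_apply (g : ℕ) (p : (Fin g → ℂ) × (Fin g → ℂ)) :
    sumElimL g p = Sum.elim p.1 p.2 := by
  funext a
  cases a <;> rfl

/-- [E1] residuation: `φ₁(u₁) + φ₂(u₂) + φ₃(ρ(u₁,u₂)) = 0` with `ρ` strictly differentiable. -/
theorem residuation {g : ℕ} (hg : g = genusFF ℂ F) (P₁ P₂ P₃ : Fin g → Place ℂ F)
    (hinj : Function.Injective (Sum.elim P₁ (Sum.elim P₂ P₃)))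
    (c₁ : ∀ i, Chart (P₁ i)) (c₂ : ∀ i, Chart (P₂ i)) (c₃ : ∀ i, Chart (P₃ i))
    (h₃ : ell (sumPts P₃) = 1) :
    ∃ ρ : (Fin g → ℂ) × (Fin g → ℂ) → (Fin g → ℂ), ρ (0, 0) = 0 ∧
      (∃ L : (Fin g → ℂ) × (Fin g → ℂ) →L[ℂ] (Fin g → ℂ), HasStrictFDerivAt ρ L (0, 0)) ∧
      ∀ᶠ p : (Fin g → ℂ) × (Fin g → ℂ) in 𝓝 (0, 0),
        chartMap c₁ p.1 + chartMap c₂ p.2 + chartMap c₃ (ρ p) = 0 := by
  have hinj' : Function.Injective (Sum.elim (Sum.elim P₁ P₂) P₃) := by
    have : Sum.elim (Sum.elim P₁ P₂) P₃ =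
        Sum.elim P₁ (Sum.elim P₂ P₃) ∘ (Equiv.sumAssoc (Fin g) (Fin g) (Fin g)) := by
      funext a
      rcases a with (a | a) | a <;> rfl
    rw [this]
    exact hinj.comp (Equiv.injective _)
  obtain ⟨ρ, hρ0, ⟨L, hL⟩, hcls, -⟩ :=
    residuation_general hg (Sum.elim P₁ P₂) P₃ hinj' (sumChart c₁ c₂) c₃ h₃
  have he0 : sumElimL g (0, 0) = 0 := by
    rw [show ((0 : Fin g → ℂ), (0 : Fin g → ℂ)) = 0 from rfl, map_zero]
  refine ⟨fun p => ρ (sumElimL g p), by show ρ (sumElimL g (0, 0)) = 0; rw [he0, hρ0],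
    ⟨L.comp (sumElimL g), ?_⟩, ?_⟩
  · exact HasStrictFDerivAt.comp (0, 0) (by rw [he0]; exact hL) (sumElimL g).hasStrictFDerivAt
  · have ht : Tendsto (sumElimL g) (𝓝 (0, 0)) (𝓝 0) :=
      (sumElimL g).continuous.tendsto' _ _ he0
    filter_upwards [ht.eventually hcls] with p hp
    rw [← hp]
    congr 1
    have hmoved : (fun k => (sumChart c₁ c₂ k).w (sumElimL g p k)) =
        Sum.elim (fun i => (c₁ i).w (p.1 i)) (fun i => (c₂ i).w (p.2 i)) := by
      rw [sumElimL_apply]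
      funext a
      cases a <;> rfl
    rw [hmoved, gsum_sum_elim, gsum_sum_elim, chartMap, chartMap, ← cls_add]
    · congr 1
      simp only [gsum_fin]
      abel
    · rw [map_sub, degree_sumPts, degree_sumPts, sub_self]
    · rw [map_sub, degree_sumPts, degree_sumPts, sub_self]

/-- [E2] the chart map is injective near `0`. -/
theorem chartMap_injOn {g : ℕ} (hg : g = genusFF ℂ F) (P₁ P₃ : Fin g → Place ℂ F)
    (hinj : Function.Injective (Sum.elim P₁ P₃))
    (c₁ : ∀ i, Chart (P₁ i)) (c₃ : ∀ i, Chart (P₃ i))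
    (h₁ : ell (sumPts P₁) = 1) (h₃ : ell (sumPts P₃) = 1) :
    ∃ r : ℝ, 0 < r ∧ Set.InjOn (chartMap c₁) (ball (0 : Fin g → ℂ) r) := by
  classical
  have hinj' : Function.Injective (Sum.elim P₃ P₁) := by
    have : Sum.elim P₃ P₁ = Sum.elim P₁ P₃ ∘ (Equiv.sumComm (Fin g) (Fin g)) := by
      funext a
      cases a <;> rfl
    rw [this]
    exact hinj.comp (Equiv.injective _)
  have hinj₁ : Function.Injective P₁ := fun i j hij =>
    Sum.inl_injective (hinj (a₁ := Sum.inl i) (a₂ := Sum.inl j) hij)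
  obtain ⟨ρ, hρ0, ⟨L, hL⟩, hcls, -⟩ := residuation_general hg P₁ P₃ hinj c₁ c₃ h₃
  obtain ⟨-, -, -, -, hrank⟩ := residuation_general hg P₃ P₁ hinj' c₃ c₁ h₁
  have hρt : Tendsto ρ (𝓝 0) (𝓝 0) := by
    have := hL.continuousAt.tendsto
    rwa [hρ0] at this
  -- `l(∑ P₁(u)) ≤ 1` near `0`
  have hell : ∀ᶠ u in 𝓝 (0 : Fin g → ℂ), ell (sumPts fun i => (c₁ i).w (u i)) ≤ 1 := by
    filter_upwards [hcls, hρt.eventually hrank] with u hu1 hu2
    have hd1 : Divisor.degree (gsum (fun k => (c₁ k).w (u k)) - gsum P₁) = 0 := by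
      rw [map_sub, degree_gsum, degree_gsum, sub_self]
    have hd2 : Divisor.degree (sumPts (fun i => (c₃ i).w (ρ u i)) - sumPts P₃) = 0 := by
      rw [map_sub, degree_sumPts, degree_sumPts, sub_self]
    rw [chartMap, ← cls_add hd1 hd2, cls_eq_zero_iff (by rw [map_add, hd1, hd2, add_zero])] at hu1
    obtain ⟨s, hs0, hs⟩ := hu1
    refine le_trans (ell_le_of_ord hs0 fun v => ?_) hu2
    have := hs v
    simp only [Finsupp.add_apply, Finsupp.sub_apply, gsum_fin] at this ⊢
    omega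
  obtain ⟨r, hr, hball⟩ := Metric.eventually_nhds_iff_ball.mp
    (hell.and (eventually_goodParam hinj₁ c₁))
  refine ⟨r, hr, fun u hu u' hu' huu' => ?_⟩
  obtain ⟨-, hgu⟩ := hball u hu
  obtain ⟨hellu', hgu'⟩ := hball u' hu'
  -- the two divisors are linearly equivalent
  have hd : ∀ w : Fin g → ℂ,
      Divisor.degree (sumPts (fun i => (c₁ i).w (w i)) - sumPts P₁) = 0 := fun w => by
    rw [map_sub, degree_sumPts, degree_sumPts, sub_self]
  have hz : cls ((sumPts (fun i => (c₁ i).w (u i)) - sumPts P₁) +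
      -(sumPts (fun i => (c₁ i).w (u' i)) - sumPts P₁)) = 0 := by
    rw [cls_add (hd u) (by rw [map_neg, hd u', neg_zero]), cls_neg]
    have : cls (sumPts (fun i => (c₁ i).w (u i)) - sumPts P₁) =
      cls (sumPts (fun i => (c₁ i).w (u' i)) - sumPts P₁) := huu'
    rw [this, add_neg_cancel]
  rw [cls_eq_zero_iff (by rw [map_add, map_neg, hd u, hd u', neg_zero, add_zero])] at hz
  obtain ⟨f, hf0, hf⟩ := hz
  have hf' : ∀ v : Place ℂ F, v.ord f =
      sumPts (fun i => (c₁ i).w (u i)) v - sumPts (fun i => (c₁ i).w (u' i)) v := fun v => by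
    have := hf v
    simp only [Finsupp.add_apply, Finsupp.sub_apply, Finsupp.neg_apply] at this
    omega
  -- `f` is constant
  have hfin := finite_riemannRochSpace (sumPts fun i => (c₁ i).w (u' i))
  have hfmem : f ∈ riemannRochSpace (sumPts fun i => (c₁ i).w (u' i)) := by
    rw [mem_riemannRochSpace_iff]
    intro v
    right
    rw [hf' v]
    have := gsum_apply_nonneg (fun i => (c₁ i).w (u i)) v
    rw [gsum_fin] at this
    omega
  have h1mem : (1 : F) ∈ riemannRochSpace (sumPts fun i => (c₁ i).w (u' i)) := by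
    rw [mem_riemannRochSpace_iff]
    intro v
    right
    rw [Place.ord_one]
    have := gsum_apply_nonneg (fun i => (c₁ i).w (u' i)) v
    rw [gsum_fin] at this
    omega
  obtain ⟨e, he⟩ := finrank_le_one_iff.mp hellu'
  obtain ⟨a1, ha1⟩ := he ⟨1, h1mem⟩
  obtain ⟨a2, ha2⟩ := he ⟨f, hfmem⟩
  have ha1' : a1 • (e : F) = 1 := congrArg Subtype.val ha1
  have ha2' : a2 • (e : F) = f := congrArg Subtype.val ha2
  have ha10 : a1 ≠ 0 := by
    rintro rfl
    rw [zero_smul] at ha1'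
    exact zero_ne_one ha1'
  have hfc : f = algebraMap ℂ F (a2 * a1⁻¹) := by
    have he' : (e : F) = a1⁻¹ • (1 : F) := by
      rw [← ha1', smul_smul, inv_mul_cancel₀ ha10, one_smul]
    rw [← ha2', he', smul_smul, Algebra.algebraMap_eq_smul_one]
  have hord0 : ∀ v : Place ℂ F, sumPts (fun i => (c₁ i).w (u i)) v =
      sumPts (fun i => (c₁ i).w (u' i)) v := fun v => by
    have := hf' v
    rw [hfc, ord_algebraMap] at this
    omega
  -- conclusion
  funext i
  have h1 : sumPts (fun i => (c₁ i).w (u' i)) ((c₁ i).w (u i)) = 1 := by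
    rw [← hord0, ← gsum_fin]
    exact gsum_apply_of_injective hgu.injective i
  have h2 : ∃ j, (c₁ j).w (u' j) = (c₁ i).w (u i) := by
    by_contra hcon
    push Not at hcon
    rw [← gsum_fin, gsum_apply_of_ne hcon] at h1
    exact zero_ne_one h1
  obtain ⟨j, hj⟩ := h2
  have hji : j = i := by
    by_contra hne
    have hmem : Function.update u' i (u i) ∈ ball (0 : Fin g → ℂ) r := by
      rw [mem_ball_zero_iff, pi_norm_lt_iff hr] at hu hu' ⊢
      intro k
      by_cases hk : k = i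
      · subst hk
        rw [Function.update_self]; exact hu k
      · rw [Function.update_of_ne hk]; exact hu' k
    have := (hball _ hmem).2.ne j i hne
    rw [Function.update_of_ne hne, Function.update_self] at this
    exact this hj
  subst hji
  exact ((hgu'.good j).inj (hgu.good j) hj).symm

end Fermat.Agent.S27
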