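import Mathlib

/-!
# S27 block [E], package [E-An]: pure analysis

A holomorphic family of linear systems together with the residual simple zeros.
-/

set_option autoImplicit false

namespace Fermat.Agent.S27

open Topology Filter

/-- an injective endomorphism of a finite dimensional space is invertible. -/
theorem an_isInvertible_of_injective {V : Type*} [NormedAddCommGroup V] [NormedSpace ℂ V]
    [FiniteDimensional ℂ V] (f : V →L[ℂ] V) (hf : Function.Injective f) : f.IsInvertible :=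
  ⟨(LinearEquiv.ofInjectiveEndo (f : V →ₗ[ℂ] V) hf).toContinuousLinearEquiv, by
    ext x
    simp⟩

/-- the strict derivative at `0` of `p ↦ L p * b (L' p)`. -/
theorem an_hasStrictFDerivAt_mul {P : Type*} [NormedAddCommGroup P] [NormedSpace ℂ P]
    (L L' : P →L[ℂ] ℂ) (b : ℂ → ℂ) (hb : AnalyticAt ℂ b 0) :
    HasStrictFDerivAt (fun p : P => L p * b (L' p)) (b 0 • L) 0 := by
  have h1 : HasStrictDerivAt b (deriv b 0) (L' 0) := by
    rw [map_zero]
    exact hb.hasStrictDerivAt
  have h2 : HasStrictFDerivAt (b ∘ L') (deriv b 0 • L') 0 :=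
    h1.comp_hasStrictFDerivAt 0 L'.hasStrictFDerivAt
  have h3 := (L.hasStrictFDerivAt (x := 0)).mul h2
  have e : L 0 • (deriv b 0 • L') + (b ∘ L') 0 • L = b 0 • L := by
    ext p
    simp
  rw [e] at h3
  exact h3

/-- the parameter space `(u, (x, r))`. -/
abbrev AnP (ι J : Type*) := (ι → ℂ) × ((ι → ℂ) × (J → ℂ))

/-- [E-An1] `β i k` (resp. `γ j k`) is the function "value of the `k`-th section in the `i`-th
(resp. `j`-th) chart"; the constant section has value `τ` in every chart. The linear system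
`u i + ∑ k, x k * β i k (u i) = 0` can be solved for `x = x(u)` near `u = 0`, and the section
`1 + ∑ x_k(u) s_k` has a zero `ρ_j(u)` near `0` in the `j`-th residual chart. -/
theorem exists_implicit_system {ι J : Type*} [Fintype ι] [Fintype J] [DecidableEq ι]
    (β : ι → ι → ℂ → ℂ) (γ : J → ι → ℂ → ℂ)
    (hβ : ∀ i k, AnalyticAt ℂ (β i k) 0) (hγ : ∀ j k, AnalyticAt ℂ (γ j k) 0)
    (hβ0 : ∀ i k, β i k 0 = if i = k then 1 else 0) :
    ∃ (x : (ι → ℂ) → (ι → ℂ)) (ρ : (ι → ℂ) → (J → ℂ)),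
      ρ 0 = 0 ∧ (∃ L : (ι → ℂ) →L[ℂ] (J → ℂ), HasStrictFDerivAt ρ L 0) ∧
      ∀ᶠ u in 𝓝 (0 : ι → ℂ),
        (∀ i, u i + ∑ k, x u k * β i k (u i) = 0) ∧
        (∀ j, ρ u j + ∑ k, x u k * γ j k (ρ u j) = 0) := by
  let U : ι → AnP ι J →L[ℂ] ℂ := fun i =>
    (ContinuousLinearMap.proj i) ∘L (ContinuousLinearMap.fst ℂ (ι → ℂ) ((ι → ℂ) × (J → ℂ)))
  let X : ι → AnP ι J →L[ℂ] ℂ := fun k =>
    (ContinuousLinearMap.proj k) ∘L (ContinuousLinearMap.fst ℂ (ι → ℂ) (J → ℂ)) ∘L
      (ContinuousLinearMap.snd ℂ (ι → ℂ) ((ι → ℂ) × (J → ℂ)))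
  let Y : J → AnP ι J →L[ℂ] ℂ := fun j =>
    (ContinuousLinearMap.proj j) ∘L (ContinuousLinearMap.snd ℂ (ι → ℂ) (J → ℂ)) ∘L
      (ContinuousLinearMap.snd ℂ (ι → ℂ) ((ι → ℂ) × (J → ℂ)))
  let G : AnP ι J → (ι → ℂ) × (J → ℂ) := fun p =>
    (fun i => U i p + ∑ k, X k p * β i k (U i p), fun j => Y j p + ∑ k, X k p * γ j k (Y j p))
  let G' : AnP ι J →L[ℂ] (ι → ℂ) × (J → ℂ) :=
    (ContinuousLinearMap.pi fun i => U i + ∑ k, β i k 0 • X k).prod
      (ContinuousLinearMap.pi fun j => Y j + ∑ k, γ j k 0 • X k)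
  have hG : HasStrictFDerivAt G G' (0 : AnP ι J) := by
    refine HasStrictFDerivAt.prodMk ?_ ?_
    · rw [hasStrictFDerivAt_pi']
      intro i
      have h1 : HasStrictFDerivAt (fun p : AnP ι J => U i p + ∑ k, X k p * β i k (U i p))
          (U i + ∑ k, β i k 0 • X k) 0 :=
        (U i).hasStrictFDerivAt.add (HasStrictFDerivAt.fun_sum fun k _ =>
          an_hasStrictFDerivAt_mul (X k) (U i) (β i k) (hβ i k))
      exact h1
    · rw [hasStrictFDerivAt_pi']
      intro j
      have h1 : HasStrictFDerivAt (fun p : AnP ι J => Y j p + ∑ k, X k p * γ j k (Y j p))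
          (Y j + ∑ k, γ j k 0 • X k) 0 :=
        (Y j).hasStrictFDerivAt.add (HasStrictFDerivAt.fun_sum fun k _ =>
          an_hasStrictFDerivAt_mul (X k) (Y j) (γ j k) (hγ j k))
      exact h1
  have hinv : (G' ∘L ContinuousLinearMap.inr ℂ (ι → ℂ) ((ι → ℂ) × (J → ℂ))).IsInvertible := by
    apply an_isInvertible_of_injective
    rw [injective_iff_map_eq_zero]
    rintro ⟨dx, dr⟩ h
    have h1 : ∀ i, (0 : ℂ) + ∑ k, β i k 0 * dx k = 0 := by
      intro i
      have := congrFun (congrArg Prod.fst h) i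
      simpa [G', U, X, Y] using this
    have h2 : ∀ j, dr j + ∑ k, γ j k 0 * dx k = 0 := by
      intro j
      have := congrFun (congrArg Prod.snd h) j
      simpa [G', U, X, Y] using this
    have hdx : dx = 0 := by
      funext i
      have := h1 i
      simpa [hβ0] using this
    have hdr : dr = 0 := by
      funext j
      have := h2 j
      simpa [hdx] using this
    rw [hdx, hdr]
    rfl
  have hG0 : G 0 = 0 := by
    ext i <;> simp [G]
  set ψ := hG.implicitFunctionOfProdDomain hinv with hψ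
  have hψ0 : ψ 0 = 0 :=
    (hG.eventually_apply_eq_iff_implicitFunctionOfProdDomain hinv).self_of_nhds.mp rfl
  refine ⟨fun u => (ψ u).1, fun u => (ψ u).2, ?_,
    ⟨_, (hG.hasStrictFDerivAt_implicitFunctionOfProdDomain hinv).snd⟩, ?_⟩
  · show (ψ 0).2 = 0
    rw [hψ0]
    rfl
  · have hev := hG.eventually_apply_implicitFunctionOfProdDomain hinv
    have hev' : ∀ᶠ u in 𝓝 (0 : ι → ℂ), G (u, ψ u) = 0 := by
      rw [hG0] at hev
      exact hev
    filter_upwards [hev'] with u hu
    constructor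
    · intro i
      exact congrFun (congrArg Prod.fst hu) i
    · intro j
      exact congrFun (congrArg Prod.snd hu) j

/-- [E-An2] the matrix `(β i k (u i))` stays invertible near `u = 0`. -/
theorem eventually_eq_zero_of_system {ι : Type*} [Fintype ι] [DecidableEq ι]
    (β : ι → ι → ℂ → ℂ) (hβ : ∀ i k, ContinuousAt (β i k) 0)
    (hβ0 : ∀ i k, β i k 0 = if i = k then 1 else 0) :
    ∀ᶠ u in 𝓝 (0 : ι → ℂ), ∀ y : ι → ℂ, (∀ i, ∑ k, y k * β i k (u i) = 0) → y = 0 := by
  let A : (ι → ℂ) → Matrix ι ι ℂ := fun u => Matrix.of fun i k => β i k (u i)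
  have hA' : ContinuousAt (fun (u : ι → ℂ) (i k : ι) => β i k (u i)) 0 := by
    rw [continuousAt_pi]
    intro i
    rw [continuousAt_pi]
    intro k
    have h1 : ContinuousAt (fun u : ι → ℂ => u i) 0 := (continuous_apply i).continuousAt
    exact ContinuousAt.comp (f := fun u : ι → ℂ => u i) (g := β i k) (x := 0) (hβ i k) h1
  have hA : ContinuousAt A 0 := hA'
  have hdet : ContinuousAt (fun u => (A u).det) 0 :=
    (continuous_id.matrix_det.continuousAt (x := A 0)).comp hA
  have hA0 : A 0 = 1 := by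
    ext i k
    simp [A, hβ0, Matrix.one_apply]
  have hne : (A 0).det ≠ 0 := by
    rw [hA0, Matrix.det_one]
    exact one_ne_zero
  filter_upwards [hdet.eventually_ne hne] with u hu y hy
  apply Matrix.eq_zero_of_mulVec_eq_zero hu
  funext i
  have := hy i
  simp only [Matrix.mulVec, dotProduct, A, Matrix.of_apply, Pi.zero_apply]
  rw [← this]
  exact Finset.sum_congr rfl fun k _ => mul_comm _ _

end Fermat.Agent.S27
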