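import Fermat.Agent.S27.A.Nonspecial
import Fermat.Agent.S27.C.Top

/-!
# S27, block [E], package E-CH: elementary facts on charts
-/

set_option autoImplicit false

namespace Fermat.Agent.S27

open AlgebraicCurve Fermat.Agent.S24.FF Topology Filter

variable {F : Type*} [Field F] [Algebra ℂ F]

/-- `τ` is a good parameter of the chart: `t - τ` is a uniformiser at `w τ`. -/
def Chart.Good {v : Place ℂ F} (c : Chart v) (τ : ℂ) : Prop :=
  (c.w τ).ord (c.t - algebraMap ℂ F τ) = 1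

theorem Chart.eventually_good {v : Place ℂ F} (c : Chart v) : ∀ᶠ τ in 𝓝 (0 : ℂ), c.Good τ :=
  c.ord_t

theorem Chart.good_zero {v : Place ℂ F} (c : Chart v) : c.Good 0 :=
  c.eventually_good.self_of_nhds

theorem Chart.Good.val_t {v : Place ℂ F} {c : Chart v} {τ : ℂ} (h : c.Good τ) :
    val (c.w τ) c.t = τ :=
  val_eq_of _ (Or.inr (by rw [h]; exact one_pos))

theorem Chart.Good.ord_t_nonneg {v : Place ℂ F} {c : Chart v} {τ : ℂ} (h : c.Good τ) :
    0 ≤ (c.w τ).ord c.t := by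
  have h1 : c.t = (c.t - algebraMap ℂ F τ) + algebraMap ℂ F τ := by ring
  rw [h1]
  exact ord_add_nonneg _ (by rw [h]; exact zero_le_one) (by rw [ord_algebraMap])

theorem Chart.Good.inj {v : Place ℂ F} {c : Chart v} {τ τ' : ℂ} (h : c.Good τ) (h' : c.Good τ')
    (e : c.w τ = c.w τ') : τ = τ' := by
  rw [← h.val_t, ← h'.val_t, e]

variable [IsFF1 ℂ F]

theorem Chart.Good.ord_t_eq {v : Place ℂ F} {c : Chart v} {τ : ℂ} (h : c.Good τ) :
    (c.w τ).ord c.t = if τ = 0 then 1 else 0 := by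
  split_ifs with h0
  · subst h0
    have := h
    rw [Chart.Good, map_zero, sub_zero] at this
    exact this
  · have h1 := h.ord_t_nonneg
    have h2 : ¬ (c.t = 0 ∨ 0 < (c.w τ).ord c.t) := by
      rw [← val_eq_zero_iff _ h1, h.val_t]
      exact h0
    push Not at h2
    omega

theorem Chart.Good.t_ne_zero {v : Place ℂ F} {c : Chart v} {τ : ℂ} (h : c.Good τ) : c.t ≠ 0 := by
  intro h0
  by_cases hτ : τ = 0
  · have := h.ord_t_eq
    rw [if_pos hτ, h0, Place.ord_zero] at this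
    omega
  · have := h.val_t
    rw [h0, ← map_zero (algebraMap ℂ F), val_algebraMap] at this
    exact hτ this.symm

/-- the vanishing criterion: `b` is the multiplicity of `w τ` in the polar divisor. -/
theorem Chart.Good.val_mul_t {v : Place ℂ F} {c : Chart v} {τ : ℂ} (h : c.Good τ) {s : F}
    (hs : s ≠ 0) {b : ℤ} (hb : b = if τ = 0 then 1 else 0) (hord : -b ≤ (c.w τ).ord s) :
    0 ≤ (c.w τ).ord (s * c.t) ∧ (val (c.w τ) (s * c.t) = 0 ↔ 1 - b ≤ (c.w τ).ord s) := by
  have h1 : (c.w τ).ord (s * c.t) = (c.w τ).ord s + b := by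
    rw [(c.w τ).ord_mul hs h.t_ne_zero, h.ord_t_eq, hb]
  have h2 : 0 ≤ (c.w τ).ord (s * c.t) := by omega
  refine ⟨h2, ?_⟩
  rw [val_eq_zero_iff _ h2, h1, or_iff_right (mul_ne_zero hs h.t_ne_zero)]
  constructor <;> intro <;> omega

theorem Chart.eventually_ne {v v' : Place ℂ F} (c : Chart v) (h : v ≠ v') :
    ∀ᶠ τ in 𝓝 (0 : ℂ), c.w τ ≠ v' := by
  have := t2Space_place (F := F)
  exact c.cont.eventually_ne (by rw [c.w_zero]; exact h)

theorem Chart.eventually_ne_chart {v v' : Place ℂ F} (c : Chart v) (c' : Chart v') (h : v ≠ v') :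
    ∀ᶠ p : ℂ × ℂ in 𝓝 (0, 0), c.w p.1 ≠ c'.w p.2 := by
  have := t2Space_place (F := F)
  have h1 : ContinuousAt (fun p : ℂ × ℂ => (c.w p.1, c'.w p.2)) (0, 0) :=
    ContinuousAt.prodMk (c.cont.comp (x := ((0 : ℂ), (0 : ℂ))) continuousAt_fst)
      (c'.cont.comp (x := ((0 : ℂ), (0 : ℂ))) continuousAt_snd)
  have h2 : {q : Place ℂ F × Place ℂ F | q.1 ≠ q.2} ∈ 𝓝 (c.w 0, c'.w 0) := by
    apply IsOpen.mem_nhds
    · exact isClosed_diagonal.isOpen_compl
    · show c.w 0 ≠ c'.w 0
      rw [c.w_zero, c'.w_zero]; exact h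
  exact h1.eventually h2

/-- all the conditions on the parameters that hold near `0`. -/
structure GoodParam {α : Type*} {R : α → Place ℂ F} (c : ∀ a, Chart (R a)) (θ : α → ℂ) : Prop where
  good : ∀ a, (c a).Good (θ a)
  ne_base : ∀ a b, a ≠ b → (c a).w (θ a) ≠ R b
  ne : ∀ a b, a ≠ b → (c a).w (θ a) ≠ (c b).w (θ b)

theorem eventually_goodParam {α : Type*} [Finite α] {R : α → Place ℂ F}
    (hR : Function.Injective R) (c : ∀ a, Chart (R a)) :
    ∀ᶠ θ in 𝓝 (0 : α → ℂ), GoodParam c θ := by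
  have hproj : ∀ a : α, Tendsto (fun θ : α → ℂ => θ a) (𝓝 0) (𝓝 0) := fun a =>
    (continuous_apply a).tendsto' _ _ rfl
  have h1 : ∀ᶠ θ in 𝓝 (0 : α → ℂ), ∀ a, (c a).Good (θ a) :=
    eventually_all.mpr fun a => (hproj a).eventually (c a).eventually_good
  have h2 : ∀ᶠ θ in 𝓝 (0 : α → ℂ), ∀ a b, a ≠ b → (c a).w (θ a) ≠ R b :=
    eventually_all.mpr fun a => eventually_all.mpr fun b => by
      by_cases hab : a = b
      · exact Eventually.of_forall fun _ h => absurd hab h
      · exact ((hproj a).eventually ((c a).eventually_ne (hR.ne hab))).mono fun _ h _ => h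
  have h3 : ∀ᶠ θ in 𝓝 (0 : α → ℂ), ∀ a b, a ≠ b → (c a).w (θ a) ≠ (c b).w (θ b) :=
    eventually_all.mpr fun a => eventually_all.mpr fun b => by
      by_cases hab : a = b
      · exact Eventually.of_forall fun _ h => absurd hab h
      · have ht : Tendsto (fun θ : α → ℂ => (θ a, θ b)) (𝓝 0) (𝓝 (0, 0)) := by
          rw [nhds_prod_eq]; exact (hproj a).prodMk (hproj b)
        exact (ht.eventually ((c a).eventually_ne_chart (c b) (hR.ne hab))).mono fun _ h _ => h
  filter_upwards [h1, h2, h3] with θ a1 a2 a3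
  exact ⟨a1, a2, a3⟩

omit [IsFF1 ℂ F] in
/-- the moved points are pairwise distinct. -/
theorem GoodParam.injective {α : Type*} {R : α → Place ℂ F} {c : ∀ a, Chart (R a)} {θ : α → ℂ}
    (h : GoodParam c θ) : Function.Injective fun a => (c a).w (θ a) := by
  intro a b hab
  by_contra hne
  exact h.ne a b hne hab

omit [IsFF1 ℂ F] in
/-- a moved point is a base point only if the parameter is `0`. -/
theorem GoodParam.eq_base_iff {α : Type*} {R : α → Place ℂ F} {c : ∀ a, Chart (R a)} {θ : α → ℂ}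
    (h : GoodParam c θ) (a b : α) : (c a).w (θ a) = R b ↔ a = b ∧ θ a = 0 := by
  constructor
  · intro hab
    have hab' : a = b := by
      by_contra hne
      exact h.ne_base a b hne hab
    subst hab'
    refine ⟨rfl, (h.good a).inj (c a).good_zero ?_⟩
    rw [hab, (c a).w_zero]
  · rintro ⟨rfl, h0⟩
    rw [h0, (c a).w_zero]

end Fermat.Agent.S27
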