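import Mathlib

/-!
# S27, block [E], package E-AN: the analytic core of residuation (pure analysis, Mathlib only)

`ι` indexes the moving points (and the unknown coefficients `c`), `κ` the residual points.
`Aq k j`, `Ap i j` are the germs of the basis functions `f_j` at the points `Q_k`, `P_i`.
We solve   `u k + ∑ j, c j * Aq k j (u k) = 0`  (all `k`)   for `c = c(u)`, and then
           `τ i + ∑ j, c j * Ap i j (τ i) = 0`  (all `i`)   for `τ = ρ(u)`.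
-/

set_option autoImplicit false

namespace Fermat.Agent.S27

open Topology Filter

/-- one scalar equation `p v + ∑ j, c j v * A j (p v)`: strict derivative at `0`. -/
theorem e_an_hasStrictFDerivAt_eq {E ι : Type*} [NormedAddCommGroup E] [NormedSpace ℂ E]
    [Fintype ι] (p : E →L[ℂ] ℂ) (c : ι → E →L[ℂ] ℂ) (A : ι → ℂ → ℂ)
    (hA : ∀ j, AnalyticAt ℂ (A j) 0) :
    HasStrictFDerivAt (fun v : E => p v + ∑ j, c j v * A j (p v))
      (p + ∑ j, A j 0 • c j) 0 := by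
  have h1 : ∀ j, HasStrictFDerivAt (fun v : E => A j (p v)) (deriv (A j) 0 • p) 0 := by
    intro j
    have h := (hA j).hasStrictDerivAt
    have h' : HasStrictDerivAt (A j) (deriv (A j) 0) (p 0) := by rwa [map_zero]
    exact h'.comp_hasStrictFDerivAt 0 p.hasStrictFDerivAt
  have h2 : ∀ j, HasStrictFDerivAt (fun v : E => c j v * A j (p v)) (A j 0 • c j) 0 := by
    intro j
    have h := ((c j).hasStrictFDerivAt (x := 0)).mul (h1 j)
    have e : ((c j) 0 • (deriv (A j) 0 • p) + A j (p 0) • c j) = A j 0 • c j := by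
      ext v
      simp
    rw [e] at h
    exact h
  exact p.hasStrictFDerivAt.add (HasStrictFDerivAt.fun_sum fun j _ => h2 j)

/-- E-AN1: implicit function theorem for the residuation system. -/
theorem e_exists_implicit {ι κ : Type*} [Fintype ι] [Fintype κ]
    (Aq : ι → ι → ℂ → ℂ) (Ap : κ → ι → ℂ → ℂ)
    (hAq : ∀ k j, AnalyticAt ℂ (Aq k j) 0) (hAp : ∀ i j, AnalyticAt ℂ (Ap i j) 0)
    (hnd : ∀ x : ι → ℂ, (∀ k, ∑ j, x j * Aq k j 0 = 0) → x = 0) :
    ∃ (c : (ι → ℂ) → (ι → ℂ)) (ρ : (ι → ℂ) → (κ → ℂ)), ρ 0 = 0 ∧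
      (∃ L : (ι → ℂ) →L[ℂ] (κ → ℂ), HasStrictFDerivAt ρ L 0) ∧
      ∀ᶠ u in 𝓝 (0 : ι → ℂ), (∀ k, u k + ∑ j, c u j * Aq k j (u k) = 0) ∧
        (∀ i, ρ u i + ∑ j, c u j * Ap i j (ρ u i) = 0) := by
  classical
  let pU : ι → ((ι → ℂ) × ((ι → ℂ) × (κ → ℂ))) →L[ℂ] ℂ := fun k =>
    (ContinuousLinearMap.proj k) ∘L (ContinuousLinearMap.fst ℂ (ι → ℂ) ((ι → ℂ) × (κ → ℂ)))
  let pC : ι → ((ι → ℂ) × ((ι → ℂ) × (κ → ℂ))) →L[ℂ] ℂ := fun j =>
    (ContinuousLinearMap.proj j) ∘L (ContinuousLinearMap.fst ℂ (ι → ℂ) (κ → ℂ)) ∘L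
      (ContinuousLinearMap.snd ℂ (ι → ℂ) ((ι → ℂ) × (κ → ℂ)))
  let pT : κ → ((ι → ℂ) × ((ι → ℂ) × (κ → ℂ))) →L[ℂ] ℂ := fun i =>
    (ContinuousLinearMap.proj i) ∘L (ContinuousLinearMap.snd ℂ (ι → ℂ) (κ → ℂ)) ∘L
      (ContinuousLinearMap.snd ℂ (ι → ℂ) ((ι → ℂ) × (κ → ℂ)))
  have hpU : ∀ k u c τ, pU k (u, (c, τ)) = u k := fun _ _ _ _ => rfl
  have hpC : ∀ j u c τ, pC j (u, (c, τ)) = c j := fun _ _ _ _ => rfl
  have hpT : ∀ i u c τ, pT i (u, (c, τ)) = τ i := fun _ _ _ _ => rfl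
  let Ψ : (ι → ℂ) × ((ι → ℂ) × (κ → ℂ)) → (ι → ℂ) × (κ → ℂ) := fun v =>
    (fun k => pU k v + ∑ j, pC j v * Aq k j (pU k v),
      fun i => pT i v + ∑ j, pC j v * Ap i j (pT i v))
  let D : ((ι → ℂ) × ((ι → ℂ) × (κ → ℂ))) →L[ℂ] (ι → ℂ) × (κ → ℂ) :=
    (ContinuousLinearMap.pi fun k => pU k + ∑ j, Aq k j 0 • pC j).prod
      (ContinuousLinearMap.pi fun i => pT i + ∑ j, Ap i j 0 • pC j)
  have hD1 : ∀ u c τ k, (D (u, (c, τ))).1 k = u k + ∑ j, Aq k j 0 * c j := by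
    intro u c τ k
    show (pU k + ∑ j, Aq k j 0 • pC j) (u, (c, τ)) = _
    rw [add_apply, sum_apply, hpU]
    rfl
  have hD2 : ∀ u c τ i, (D (u, (c, τ))).2 i = τ i + ∑ j, Ap i j 0 * c j := by
    intro u c τ i
    show (pT i + ∑ j, Ap i j 0 • pC j) (u, (c, τ)) = _
    rw [add_apply, sum_apply, hpT]
    rfl
  have hΨ : HasStrictFDerivAt Ψ D (0 : (ι → ℂ) × ((ι → ℂ) × (κ → ℂ))) := by
    apply HasStrictFDerivAt.prodMk
    · rw [hasStrictFDerivAt_pi']
      intro k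
      exact e_an_hasStrictFDerivAt_eq (pU k) pC (Aq k) (hAq k)
    · rw [hasStrictFDerivAt_pi']
      intro i
      exact e_an_hasStrictFDerivAt_eq (pT i) pC (Ap i) (hAp i)
  have hinj : Function.Injective
      (D ∘L ContinuousLinearMap.inr ℂ (ι → ℂ) ((ι → ℂ) × (κ → ℂ))) := by
    rw [injective_iff_map_eq_zero]
    rintro ⟨c, τ⟩ h
    have h' : D (0, (c, τ)) = 0 := h
    have h1 : ∀ k, ∑ j, c j * Aq k j 0 = 0 := by
      intro k
      have h3 := hD1 0 c τ k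
      rw [h'] at h3
      have h4 : (0 : ℂ) = 0 + ∑ j, Aq k j 0 * c j := h3
      have h5 : ∑ j, Aq k j 0 * c j = 0 := by rw [zero_add] at h4; exact h4.symm
      exact (Finset.sum_congr rfl fun j _ => mul_comm _ _).trans h5
    have hc : c = 0 := hnd c h1
    subst hc
    have h2 : τ = 0 := by
      funext i
      have h3 := hD2 0 0 τ i
      rw [h'] at h3
      have h4 : (0 : ℂ) = τ i + ∑ j, Ap i j 0 * (0 : ι → ℂ) j := h3
      simpa using h4.symm
    rw [h2]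
    rfl
  have hinv : (D ∘L ContinuousLinearMap.inr ℂ (ι → ℂ) ((ι → ℂ) × (κ → ℂ))).IsInvertible := by
    refine ⟨(LinearEquiv.ofInjectiveEndo
      ((D ∘L ContinuousLinearMap.inr ℂ (ι → ℂ) ((ι → ℂ) × (κ → ℂ)) :
        ((ι → ℂ) × (κ → ℂ)) →L[ℂ] ((ι → ℂ) × (κ → ℂ))) :
        ((ι → ℂ) × (κ → ℂ)) →ₗ[ℂ] ((ι → ℂ) × (κ → ℂ)))
      hinj).toContinuousLinearEquiv, ?_⟩
    ext x <;> rfl
  let ψ := hΨ.implicitFunctionOfProdDomain hinv
  have hψ0 : ψ 0 = 0 :=
    (hΨ.eventually_apply_eq_iff_implicitFunctionOfProdDomain hinv).self_of_nhds.mp rfl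
  have hψd := hΨ.hasStrictFDerivAt_implicitFunctionOfProdDomain hinv
  have hΨ0 : Ψ 0 = 0 := by
    simp [Ψ]
    exact ⟨rfl, rfl⟩
  refine ⟨fun u => (ψ u).1, fun u => (ψ u).2, ?_, ⟨_, hψd.snd⟩, ?_⟩
  · show (ψ 0).2 = 0
    rw [hψ0]
    rfl
  · filter_upwards [hΨ.eventually_apply_implicitFunctionOfProdDomain hinv] with u hu
    rw [hΨ0] at hu
    constructor
    · intro k
      exact congrFun (congrArg Prod.fst hu) k
    · intro i
      exact congrFun (congrArg Prod.snd hu) i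

/-- E-AN2: nondegeneracy is an open condition. -/
theorem e_eventually_nondeg {ι : Type*} [Fintype ι]
    (Aq : ι → ι → ℂ → ℂ) (hAq : ∀ k j, ContinuousAt (Aq k j) 0)
    (hnd : ∀ x : ι → ℂ, (∀ k, ∑ j, x j * Aq k j 0 = 0) → x = 0) :
    ∀ᶠ u in 𝓝 (0 : ι → ℂ), ∀ x : ι → ℂ, (∀ k, ∑ j, x j * Aq k j (u k) = 0) → x = 0 := by
  classical
  let M : (ι → ℂ) → Matrix ι ι ℂ := fun u => Matrix.of fun k j => Aq k j (u k)
  have key : ∀ u, (M u).det ≠ 0 →
      ∀ x : ι → ℂ, (∀ k, ∑ j, x j * Aq k j (u k) = 0) → x = 0 := by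
    intro u hdet x hx
    by_contra hx0
    apply hdet
    rw [← Matrix.exists_mulVec_eq_zero_iff]
    refine ⟨x, hx0, ?_⟩
    funext k
    have := hx k
    simpa [M, Matrix.mulVec, dotProduct, mul_comm] using this
  have hdet0 : (M 0).det ≠ 0 := by
    intro h
    obtain ⟨v, hv0, hv⟩ := Matrix.exists_mulVec_eq_zero_iff.mpr h
    apply hv0
    apply hnd
    intro k
    have := congrFun hv k
    simpa [M, Matrix.mulVec, dotProduct, mul_comm] using this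
  have hcont : ContinuousAt (fun u => (M u).det) 0 := by
    have h1 : ContinuousAt M 0 := by
      refine continuousAt_pi.mpr fun k => continuousAt_pi.mpr fun j => ?_
      have h2 : ContinuousAt (fun u : ι → ℂ => u k) 0 := (continuous_apply k).continuousAt
      exact ContinuousAt.comp (f := fun u : ι → ℂ => u k) (g := Aq k j) (hAq k j) h2
    exact (continuous_id.matrix_det).continuousAt.comp h1
  filter_upwards [hcont.eventually_ne hdet0] with u hu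
  exact key u hu

end Fermat.Agent.S27
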