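import Fermat.Agent.S27.E.Gsum
import Fermat.Agent.S27.E.Implicit

/-!
# S27, block [E]: residuation, general form

`Q k` (`k : ι`) are the moving points, `P i` (`i : Fin g`) the residual points, `l(∑ P) = 1`.
-/

set_option autoImplicit false

namespace Fermat.Agent.S27

open AlgebraicCurve Fermat.Agent.S24.FF Topology Filter

variable {F : Type*} [Field F] [Algebra ℂ F] [IsFF1 ℂ F]

omit [IsFF1 ℂ F] in
/-- the charts of the combined family. -/
def sumChart {ι κ : Type*} {Q : ι → Place ℂ F} {P : κ → Place ℂ F} (cQ : ∀ k, Chart (Q k))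
    (cP : ∀ i, Chart (P i)) : ∀ a : ι ⊕ κ, Chart (Sum.elim Q P a)
  | .inl k => cQ k
  | .inr i => cP i

/-- `l(∑ Q + ∑ P) = #Q + 1`. -/
theorem e_ell_base {ι : Type*} [Fintype ι] {g : ℕ} (hg : g = genusFF ℂ F) (Q : ι → Place ℂ F)
    (P : Fin g → Place ℂ F) (hP : ell (sumPts P) = 1) :
    ell (gsum Q + sumPts P) = Fintype.card ι + 1 := by
  have h1 := an_hh1_eq (sumPts P)
  rw [hP, degree_sumPts, ← hg] at h1
  have h2 : hh1 (gsum Q + sumPts P) ≤ hh1 (sumPts P) :=
    hh1_antitone (le_add_of_nonneg_left (gsum_nonneg Q))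
  have h3 := an_hh1_eq (gsum Q + sumPts P)
  rw [map_add, degree_gsum, degree_sumPts, ← hg] at h3
  push_cast at h1
  have h4 : (hh1 (gsum Q + sumPts P) : ℤ) ≤ hh1 (sumPts P) := by exact_mod_cast h2
  have h5 : (ell (gsum Q + sumPts P) : ℤ) = Fintype.card ι + 1 := by
    have : (0 : ℤ) ≤ hh1 (gsum Q + sumPts P) := Int.natCast_nonneg _
    omega
  exact_mod_cast h5

/-- the germs of the functions `f j * t` in the charts. -/
theorem e_exists_germs {α ι : Type*} [Fintype α] [Finite ι] {R : α → Place ℂ F}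
    (hR : Function.Injective R) (c : ∀ a, Chart (R a)) (f : ι → F)
    (hf : ∀ j, f j ∈ riemannRochSpace (gsum R)) :
    ∃ G : α → ι → ℂ → ℂ, (∀ a j, AnalyticAt ℂ (G a j) 0) ∧
      ∀ a, ∀ᶠ τ in 𝓝 (0 : ℂ), ∀ j, 0 ≤ ((c a).w τ).ord (f j * (c a).t) ∧
        val ((c a).w τ) (f j * (c a).t) = G a j τ := by
  have h0 : ∀ a j, 0 ≤ (R a).ord (f j * (c a).t) := by
    intro a j
    by_cases hfj : f j = 0
    · simp [hfj]
    · have h1 := ((mem_riemannRochSpace_iff.mp (hf j)) (R a)).resolve_left hfj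
      rw [gsum_apply_of_injective hR] at h1
      have h2 := (c a).good_zero.ord_t_eq
      rw [if_pos rfl, (c a).w_zero] at h2
      rw [(R a).ord_mul hfj (c a).good_zero.t_ne_zero, h2]
      omega
  choose G hG1 hG2 using fun a j => (c a).holo (f j * (c a).t) (h0 a j)
  exact ⟨G, hG1, fun a => eventually_all.mpr fun j => hG2 a j⟩

/-- the value of `(a₀ + ∑ x j f j) * t` at a moved point. -/
theorem e_val_formula {ι : Type*} [Fintype ι] {v : Place ℂ F} (c : Chart v) {τ : ℂ}
    (hτ : c.Good τ) (f : ι → F) (G : ι → ℂ)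
    (hG : ∀ j, 0 ≤ (c.w τ).ord (f j * c.t) ∧ val (c.w τ) (f j * c.t) = G j) (a₀ : ℂ)
    (x : ι → ℂ) :
    val (c.w τ) ((algebraMap ℂ F a₀ + ∑ j, x j • f j) * c.t) = a₀ * τ + ∑ j, x j * G j := by
  have h1 : (algebraMap ℂ F a₀ + ∑ j, x j • f j) * c.t =
      a₀ • c.t + ∑ j, x j • (f j * c.t) := by
    rw [add_mul, Finset.sum_mul, Algebra.smul_def]
    congr 1
    exact Finset.sum_congr rfl fun j _ => smul_mul_assoc _ _ _
  obtain ⟨h2, h3⟩ := e_val_sum (c.w τ) Finset.univ (fun j => x j • (f j * c.t))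
    fun j _ => e_ord_smul_nonneg _ _ (hG j).1
  rw [h1, val_add _ (e_ord_smul_nonneg _ _ hτ.ord_t_nonneg) h2, h3, val_smul _ _ hτ.ord_t_nonneg,
    hτ.val_t]
  congr 1
  exact Finset.sum_congr rfl fun j _ => by rw [val_smul _ _ (hG j).1, (hG j).2]

/-- **Residuation, general form.** -/
theorem residuation_general {ι : Type*} [Fintype ι] {g : ℕ} (hg : g = genusFF ℂ F)
    (Q : ι → Place ℂ F) (P : Fin g → Place ℂ F) (hinj : Function.Injective (Sum.elim Q P))
    (cQ : ∀ k, Chart (Q k)) (cP : ∀ i, Chart (P i)) (hP : ell (sumPts P) = 1) :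
    ∃ ρ : (ι → ℂ) → (Fin g → ℂ), ρ 0 = 0 ∧
      (∃ L : (ι → ℂ) →L[ℂ] (Fin g → ℂ), HasStrictFDerivAt ρ L 0) ∧
      (∀ᶠ u in 𝓝 (0 : ι → ℂ),
        cls (gsum (fun k => (cQ k).w (u k)) - gsum Q) + chartMap cP (ρ u) = 0) ∧
      (∀ᶠ u in 𝓝 (0 : ι → ℂ),
        ell (gsum Q + sumPts P - gsum (fun k => (cQ k).w (u k))) ≤ 1) := by
  classical
  have hB : gsum (Sum.elim Q P) = gsum Q + sumPts P := gsum_sum_elim Q P
  have hfin := finite_riemannRochSpace (gsum (Sum.elim Q P))
  have hdim : Module.finrank ℂ (riemannRochSpace (gsum (Sum.elim Q P))) = Fintype.card ι + 1 := by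
    rw [hB]; exact e_ell_base hg Q P hP
  have h1mem : ∀ D : Divisor ℂ F, (∀ v, 0 ≤ D v) → (1 : F) ∈ riemannRochSpace D := by
    intro D hD
    rw [mem_riemannRochSpace_iff]
    intro v
    right
    rw [Place.ord_one]
    have := hD v
    omega
  have h1V := h1mem _ (gsum_apply_nonneg (Sum.elim Q P))
  obtain ⟨f, hfV, hfind, hfspan⟩ :=
    e_exists_family (ι := ι) (riemannRochSpace (gsum (Sum.elim Q P))) h1V hdim
  obtain ⟨G, hGan, hGev⟩ := e_exists_germs hinj (sumChart cQ cP) f hfV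
  have hcomb : ∀ (a₀ : ℂ) (x : ι → ℂ),
      algebraMap ℂ F a₀ + ∑ j, x j • f j ∈ riemannRochSpace (gsum (Sum.elim Q P)) := by
    intro a₀ x
    refine Submodule.add_mem _ ?_ (Submodule.sum_mem _ fun j _ => Submodule.smul_mem _ _ (hfV j))
    rw [Algebra.algebraMap_eq_smul_one]
    exact Submodule.smul_mem _ _ h1V
  -- nondegeneracy at the base point
  have hnd : ∀ x : ι → ℂ, (∀ k, ∑ j, x j * G (Sum.inl k) j 0 = 0) → x = 0 := by
    intro x hx
    by_cases h0 : algebraMap ℂ F 0 + ∑ j, x j • f j = 0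
    · exact (hfind 0 x h0).2
    · have hmem : algebraMap ℂ F 0 + ∑ j, x j • f j ∈ riemannRochSpace (sumPts P) := by
        rw [mem_riemannRochSpace_iff]
        intro v
        right
        have hv := ((mem_riemannRochSpace_iff.mp (hcomb 0 x)) v).resolve_left h0
        by_cases hvQ : ∃ k, Q k = v
        · obtain ⟨k, rfl⟩ := hvQ
          have e1 : sumPts P (Q k) = 0 := gsum_apply_of_ne fun i hi =>
            Sum.inr_ne_inl (hinj (a₁ := Sum.inr i) (a₂ := Sum.inl k) hi)
          have e2 : gsum (Sum.elim Q P) (Q k) = 1 := gsum_apply_of_injective hinj (Sum.inl k)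
          rw [e1, neg_zero]
          have hval := e_val_formula (sumChart cQ cP (Sum.inl k))
            (sumChart cQ cP (Sum.inl k)).good_zero f (fun j => G (Sum.inl k) j 0)
            ((hGev (Sum.inl k)).self_of_nhds) 0 x
          rw [zero_mul, zero_add, hx k] at hval
          have hw0 : (sumChart cQ cP (Sum.inl k)).w 0 = Q k := (sumChart cQ cP (Sum.inl k)).w_zero
          have hcrit := ((sumChart cQ cP (Sum.inl k)).good_zero.val_mul_t h0 (b := 1) (by simp)
            (by rw [hw0, ← e2]; exact hv)).2.mp hval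
          rw [hw0] at hcrit
          simpa using hcrit
        · push Not at hvQ
          rw [hB, Finsupp.add_apply, gsum_apply_of_ne hvQ, zero_add] at hv
          exact hv
      have hfinP := finite_riemannRochSpace (sumPts P)
      have h1P : (1 : F) ∈ riemannRochSpace (sumPts P) := h1mem _ (gsum_apply_nonneg P)
      have hone0 : (⟨1, h1P⟩ : riemannRochSpace (sumPts P)) ≠ 0 :=
        fun h => one_ne_zero (congrArg Subtype.val h)
      obtain ⟨a, ha⟩ := (finrank_eq_one_iff_of_nonzero' _ hone0).mp hP ⟨_, hmem⟩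
      have ha' : algebraMap ℂ F a = algebraMap ℂ F 0 + ∑ j, x j • f j := by
        have := congrArg Subtype.val ha
        simpa [Algebra.smul_def] using this
      refine (hfind (-a) x ?_).2
      rw [map_neg, ha', map_zero]
      ring
  obtain ⟨cc, ρ, hρ0, ⟨L, hρL⟩, hsys⟩ := e_exists_implicit (fun k j => G (Sum.inl k) j)
    (fun i j => G (Sum.inr i) j) (fun k j => hGan _ j) (fun i j => hGan _ j) hnd
  have hnd' := e_eventually_nondeg (fun k j => G (Sum.inl k) j)
    (fun k j => (hGan _ j).continuousAt) hnd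
  -- the combined parameter
  have hθ : Tendsto (fun u : ι → ℂ => (Sum.elim u (ρ u) : ι ⊕ Fin g → ℂ)) (𝓝 0) (𝓝 0) := by
    rw [tendsto_pi_nhds]
    rintro (k | i)
    · exact (continuous_apply k).tendsto' _ _ rfl
    · have h1 : Tendsto ρ (𝓝 0) (𝓝 0) := by
        have := hρL.continuousAt.tendsto
        rwa [hρ0] at this
      exact ((continuous_apply i).tendsto' _ _ rfl).comp h1
  have hgermθ : ∀ᶠ θ in 𝓝 (0 : ι ⊕ Fin g → ℂ), ∀ a j,
      0 ≤ ((sumChart cQ cP a).w (θ a)).ord (f j * (sumChart cQ cP a).t) ∧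
        val ((sumChart cQ cP a).w (θ a)) (f j * (sumChart cQ cP a).t) = G a j (θ a) :=
    eventually_all.mpr fun a =>
      ((continuous_apply a).tendsto' (0 : ι ⊕ Fin g → ℂ) 0 rfl).eventually (hGev a)
  -- the main facts, for `u` near `0`
  have main : ∀ᶠ u in 𝓝 (0 : ι → ℂ), ∃ s : F, s ≠ 0 ∧
      (∀ v : Place ℂ F, v.ord s = gsum (fun k => (cQ k).w (u k)) v +
        sumPts (fun i => (cP i).w (ρ u i)) v - (gsum Q v + sumPts P v)) ∧
      s ∈ riemannRochSpace (gsum Q + sumPts P - gsum (fun k => (cQ k).w (u k))) ∧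
      ∀ h ∈ riemannRochSpace (gsum Q + sumPts P - gsum (fun k => (cQ k).w (u k))),
        ∃ a₀ : ℂ, a₀ • s = h := by
    filter_upwards [hsys, hnd', hθ.eventually (eventually_goodParam hinj (sumChart cQ cP)),
      hθ.eventually hgermθ] with u hsysu hndu hgood hgerm
    have hmoved : (fun a => (sumChart cQ cP a).w ((Sum.elim u (ρ u) : ι ⊕ Fin g → ℂ) a)) =
        Sum.elim (fun k => (cQ k).w (u k)) (fun i => (cP i).w (ρ u i)) := by
      funext a
      cases a <;> rfl
    have hs0 : algebraMap ℂ F 1 + ∑ j, cc u j • f j ≠ 0 := fun h => one_ne_zero (hfind 1 _ h).1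
    have hval : ∀ a, val ((sumChart cQ cP a).w ((Sum.elim u (ρ u) : ι ⊕ Fin g → ℂ) a))
        ((algebraMap ℂ F 1 + ∑ j, cc u j • f j) * (sumChart cQ cP a).t) = 0 := by
      intro a
      rw [e_val_formula (sumChart cQ cP a) (hgood.good a) f _ (hgerm a) 1 (cc u), one_mul]
      rcases a with k | i
      · exact hsysu.1 k
      · exact hsysu.2 i
    have hord := hgood.ord_eq hinj hs0 (hcomb 1 _) hval
    rw [hmoved, gsum_sum_elim, hB] at hord
    have hord' : ∀ v : Place ℂ F, v.ord (algebraMap ℂ F 1 + ∑ j, cc u j • f j) =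
        gsum (fun k => (cQ k).w (u k)) v +
        sumPts (fun i => (cP i).w (ρ u i)) v - (gsum Q v + sumPts P v) := fun v => by
      rw [hord v]; rfl
    -- the rank statement
    have hsD : algebraMap ℂ F 1 + ∑ j, cc u j • f j ∈
        riemannRochSpace (gsum Q + sumPts P - gsum (fun k => (cQ k).w (u k))) := by
      rw [mem_riemannRochSpace_iff]
      intro v
      right
      rw [hord' v, Finsupp.sub_apply, Finsupp.add_apply]
      have := gsum_apply_nonneg (fun i => (cP i).w (ρ u i)) v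
      rw [gsum_fin] at this
      omega
    have hQinj : Function.Injective fun k => (cQ k).w (u k) := by
      intro k k' hkk
      exact Sum.inl_injective (hgood.injective (a₁ := Sum.inl k) (a₂ := Sum.inl k') hkk)
    refine ⟨_, hs0, hord', hsD, ?_⟩
    intro h hh
    have hhV : h ∈ riemannRochSpace (gsum (Sum.elim Q P)) := by
      refine an_riemannRochSpace_mono ?_ hh
      rw [hB]
      exact sub_le_self _ (gsum_nonneg _)
    obtain ⟨a₀, x, hax⟩ := hfspan h hhV
    have hdiff : h - a₀ • (algebraMap ℂ F 1 + ∑ j, cc u j • f j) =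
        algebraMap ℂ F 0 + ∑ j, (x j - a₀ * cc u j) • f j := by
      rw [hax, smul_add, Finset.smul_sum, map_zero, zero_add, Algebra.smul_def, map_one, mul_one]
      simp only [sub_smul, mul_smul, Finset.sum_sub_distrib]
      ring
    have hy : (fun j => x j - a₀ * cc u j) = 0 := by
      by_cases h0 : algebraMap ℂ F 0 + ∑ j, (x j - a₀ * cc u j) • f j = 0
      · exact (hfind 0 _ h0).2
      · apply hndu
        intro k
        have hmemD : algebraMap ℂ F 0 + ∑ j, (x j - a₀ * cc u j) • f j ∈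
            riemannRochSpace (gsum Q + sumPts P - gsum (fun k => (cQ k).w (u k))) := by
          rw [← hdiff]
          exact Submodule.sub_mem _ hh (Submodule.smul_mem _ _ hsD)
        have hk := ((mem_riemannRochSpace_iff.mp hmemD) ((cQ k).w (u k))).resolve_left h0
        rw [Finsupp.sub_apply, ← hB, gsum_apply_of_injective hQinj k] at hk
        have hb := hgood.gsum_apply hinj (Sum.inl k)
        have hcrit := ((hgood.good (Sum.inl k)).val_mul_t h0 hb (by
          have : (sumChart cQ cP (Sum.inl k)).w ((Sum.elim u (ρ u) : ι ⊕ Fin g → ℂ) (Sum.inl k))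
            = (cQ k).w (u k) := rfl
          rw [this]; omega)).2.mpr (by
          have : (sumChart cQ cP (Sum.inl k)).w ((Sum.elim u (ρ u) : ι ⊕ Fin g → ℂ) (Sum.inl k))
            = (cQ k).w (u k) := rfl
          rw [this]; omega)
        rw [e_val_formula (sumChart cQ cP (Sum.inl k)) (hgood.good (Sum.inl k)) f _
          (hgerm (Sum.inl k)) 0 _, zero_mul, zero_add] at hcrit
        exact hcrit
    refine ⟨a₀, ?_⟩
    have h3 := hdiff
    rw [show (∑ j, (x j - a₀ * cc u j) • f j) = 0 from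
      Finset.sum_eq_zero fun j _ => by rw [congrFun hy j]; simp, map_zero, add_zero] at h3
    exact (sub_eq_zero.mp h3).symm
  refine ⟨ρ, hρ0, ⟨L, hρL⟩, ?_, ?_⟩
  · filter_upwards [main] with u hu
    obtain ⟨s, hs0, hord, -, -⟩ := hu
    have hd1 : Divisor.degree (gsum (fun k => (cQ k).w (u k)) - gsum Q) = 0 := by
      rw [map_sub, degree_gsum, degree_gsum, sub_self]
    have hd2 : Divisor.degree (sumPts (fun i => (cP i).w (ρ u i)) - sumPts P) = 0 := by
      rw [map_sub, degree_sumPts, degree_sumPts, sub_self]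
    rw [chartMap, ← cls_add hd1 hd2, cls_eq_zero_iff (by rw [map_add, hd1, hd2, add_zero])]
    refine ⟨s, hs0, fun v => ?_⟩
    rw [hord v]
    simp only [Finsupp.add_apply, Finsupp.sub_apply]
    ring
  · filter_upwards [main] with u hu
    obtain ⟨s, -, -, hsD, hspan⟩ := hu
    exact finrank_le_one (⟨s, hsD⟩ : riemannRochSpace _) fun w => by
      obtain ⟨a₀, ha₀⟩ := hspan w w.2
      exact ⟨a₀, Subtype.ext ha₀⟩

end Fermat.Agent.S27
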