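import Fermat.Agent.S27.E.Chart

/-!
# S27, block [E], package E-GS: sums of places over a fintype, values of sums, linear algebra
-/

set_option autoImplicit false

namespace Fermat.Agent.S27

open AlgebraicCurve Fermat.Agent.S24.FF Topology Filter

section General

variable {K F : Type*} [Field K] [Field F] [Algebra K F]

/-- the divisor `∑ a, R a` of a finite family of places. -/
noncomputable def gsum {α : Type*} [Fintype α] (R : α → Place K F) : Divisor K F :=
  ∑ a, Finsupp.single (R a) 1

theorem gsum_fin {n : ℕ} (P : Fin n → Place K F) : gsum P = sumPts P := rfl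

theorem gsum_nonneg {α : Type*} [Fintype α] (R : α → Place K F) : 0 ≤ gsum R :=
  Finset.sum_nonneg fun _ _ => Finsupp.single_nonneg.mpr zero_le_one

theorem gsum_apply_nonneg {α : Type*} [Fintype α] (R : α → Place K F) (v : Place K F) :
    0 ≤ gsum R v := by
  have := Finsupp.le_def.mp (gsum_nonneg R) v
  simpa using this

theorem gsum_apply_of_injective {α : Type*} [Fintype α] {R : α → Place K F}
    (hR : Function.Injective R) (a : α) : gsum R (R a) = 1 := by
  classical
  rw [gsum, Finsupp.finsetSum_apply, Finset.sum_eq_single a]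
  · exact Finsupp.single_eq_same
  · intro b _ hb
    rw [Finsupp.single_apply, if_neg (hR.ne hb)]
  · intro h; exact absurd (Finset.mem_univ a) h

theorem gsum_apply_of_ne {α : Type*} [Fintype α] {R : α → Place K F} {v : Place K F}
    (h : ∀ a, R a ≠ v) : gsum R v = 0 := by
  classical
  rw [gsum, Finsupp.finsetSum_apply]
  refine Finset.sum_eq_zero fun a _ => ?_
  rw [Finsupp.single_apply, if_neg (h a)]

theorem gsum_sum_elim {α β : Type*} [Fintype α] [Fintype β] (Q : α → Place K F)
    (P : β → Place K F) : gsum (Sum.elim Q P) = gsum Q + gsum P := by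
  simp [gsum, Fintype.sum_sum_type]

theorem degree_gsum [IsAlgClosed K] [IsFF1 K F] {α : Type*} [Fintype α] (R : α → Place K F) :
    Divisor.degree (gsum R) = Fintype.card α := by
  rw [gsum, map_sum, Finset.sum_congr rfl fun a _ => an_degree_single (R a) 1]
  simp

/-- values of finite sums. -/
theorem e_val_sum [IsAlgClosed K] [IsFF1 K F] (v : Place K F) {ι : Type*} (s : Finset ι) (φ : ι → F)
    (h : ∀ j ∈ s, 0 ≤ v.ord (φ j)) :
    0 ≤ v.ord (∑ j ∈ s, φ j) ∧ val v (∑ j ∈ s, φ j) = ∑ j ∈ s, val v (φ j) := by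
  classical
  induction s using Finset.induction_on with
  | empty =>
    refine ⟨by simp, ?_⟩
    rw [Finset.sum_empty, Finset.sum_empty, ← map_zero (algebraMap K F), val_algebraMap]
  | insert a s ha ih =>
    obtain ⟨h1, h2⟩ := ih fun j hj => h j (Finset.mem_insert_of_mem hj)
    have h0 := h a (Finset.mem_insert_self a s)
    rw [Finset.sum_insert ha, Finset.sum_insert ha]
    exact ⟨ord_add_nonneg v h0 h1, by rw [val_add v h0 h1, h2]⟩

theorem e_ord_smul_nonneg (v : Place K F) (x : K) {f : F} (h : 0 ≤ v.ord f) : 0 ≤ v.ord (x • f) := by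
  rw [Algebra.smul_def]
  by_cases hx : x = 0
  · simp [hx]
  by_cases hf : f = 0
  · simp [hf]
  rw [v.ord_mul ((map_ne_zero _).mpr hx) hf, ord_algebraMap, zero_add]
  exact h

/-- `l(D') ≤ l(D)` if `D' = D + div f`. -/
theorem ell_le_of_ord [IsAlgClosed K] [CharZero K] [IsFF1 K F] {D D' : Divisor K F} {f : F}
    (hf : f ≠ 0) (h : ∀ v : Place K F, D' v = D v + v.ord f) : ell D' ≤ ell D := by
  have := finite_riemannRochSpace D
  have hmem : ∀ x ∈ riemannRochSpace D', f * x ∈ riemannRochSpace D := by
    intro x hx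
    rw [mem_riemannRochSpace_iff] at hx ⊢
    intro v
    by_cases hx0 : x = 0
    · left; rw [hx0, mul_zero]
    · right
      have := (hx v).resolve_left hx0
      rw [v.ord_mul hf hx0]
      have := h v
      omega
  let φ : riemannRochSpace D' →ₗ[K] riemannRochSpace D :=
    ((LinearMap.mulLeft K f).domRestrict (riemannRochSpace D')).codRestrict (riemannRochSpace D)
      fun x => hmem x x.2
  refine LinearMap.finrank_le_finrank_of_injective (f := φ) ?_
  intro x y hxy
  have h1 : f * (x : F) = f * (y : F) := congrArg Subtype.val hxy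
  exact Subtype.ext (mul_left_cancel₀ hf h1)

/-- abstract version of `e_exists_family`. -/
theorem e_exists_family_aux {ι M : Type*} [Fintype ι] [AddCommGroup M] [Module K M]
    [Module.Finite K M] (e : M) (he : e ≠ 0) (hdim : Module.finrank K M = Fintype.card ι + 1) :
    ∃ f : ι → M, (∀ (a : K) (x : ι → K), a • e + ∑ j, x j • f j = 0 → a = 0 ∧ x = 0) ∧
      (∀ h : M, ∃ (a : K) (x : ι → K), h = a • e + ∑ j, x j • f j) := by
  classical
  obtain ⟨W, hW⟩ := Submodule.exists_isCompl (K ∙ e : Submodule K M)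
  have hfr : Module.finrank K W = Fintype.card ι := by
    have := Submodule.finrank_add_eq_of_isCompl hW
    rw [finrank_span_singleton he, hdim] at this
    omega
  let b : Module.Basis ι K W :=
    (Module.finBasisOfFinrankEq K W hfr).reindex (Fintype.equivFinOfCardEq rfl).symm
  have hsum : ∀ x : ι → K, ∑ j, x j • ((b j : W) : M) = ((∑ j, x j • b j : W) : M) := by
    intro x
    simp
  refine ⟨fun j => ((b j : W) : M), ?_, ?_⟩
  · intro a x h
    rw [hsum] at h
    have h3 : ((∑ j, x j • b j : W) : M) ∈ (K ∙ e : Submodule K M) := by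
      rw [← neg_eq_iff_add_eq_zero.mpr h]
      exact Submodule.neg_mem _ (Submodule.smul_mem _ _ (Submodule.mem_span_singleton_self e))
    have h4 : ((∑ j, x j • b j : W) : M) = 0 := by
      have := Submodule.mem_inf.mpr ⟨h3, (∑ j, x j • b j : W).2⟩
      rwa [hW.inf_eq_bot, Submodule.mem_bot] at this
    have h5 : (∑ j, x j • b j : W) = 0 := Subtype.ext h4
    have h6 : x = 0 := by
      funext j
      exact (Fintype.linearIndependent_iff.mp b.linearIndependent x h5) j
    rw [h4, add_zero] at h
    exact ⟨(smul_eq_zero.mp h).resolve_right he, h6⟩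
  · intro h
    have htop : h ∈ (K ∙ e : Submodule K M) ⊔ W := by
      rw [hW.sup_eq_top]; exact Submodule.mem_top
    obtain ⟨y, hy, w, hw, hyw⟩ := Submodule.mem_sup.mp htop
    obtain ⟨a, rfl⟩ := Submodule.mem_span_singleton.mp hy
    refine ⟨a, fun j => b.repr ⟨w, hw⟩ j, ?_⟩
    rw [hsum, b.sum_repr]
    exact hyw.symm

/-- a basis-like family of a finite dimensional space of functions containing `1`. -/
theorem e_exists_family {ι : Type*} [Fintype ι] (V : Submodule K F) [Module.Finite K V]
    (h1 : (1 : F) ∈ V) (hdim : Module.finrank K V = Fintype.card ι + 1) :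
    ∃ f : ι → F, (∀ j, f j ∈ V) ∧
      (∀ (a : K) (x : ι → K), algebraMap K F a + ∑ j, x j • f j = 0 → a = 0 ∧ x = 0) ∧
      (∀ h ∈ V, ∃ (a : K) (x : ι → K), h = algebraMap K F a + ∑ j, x j • f j) := by
  have hone0 : (⟨1, h1⟩ : V) ≠ 0 := fun h => one_ne_zero (congrArg Subtype.val h)
  obtain ⟨f, hf1, hf2⟩ := e_exists_family_aux (K := K) (⟨1, h1⟩ : V) hone0 hdim
  have hcoe : ∀ (a : K) (x : ι → K), ((a • (⟨1, h1⟩ : V) + ∑ j, x j • f j : V) : F) =
      algebraMap K F a + ∑ j, x j • (f j : F) := by
    intro a x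
    simp [Algebra.smul_def]
  refine ⟨fun j => (f j : F), fun j => (f j).2, ?_, ?_⟩
  · intro a x h
    refine hf1 a x (Subtype.ext ?_)
    rw [hcoe, h]; rfl
  · intro h hh
    obtain ⟨a, x, hax⟩ := hf2 ⟨h, hh⟩
    exact ⟨a, x, by rw [← hcoe, ← hax]⟩

end General

section Div

variable {F : Type*} [Field F] [Algebra ℂ F] [IsFF1 ℂ F]

omit [IsFF1 ℂ F] in
/-- the multiplicity of a moved point in the base divisor. -/
theorem GoodParam.gsum_apply {α : Type*} [Fintype α] {R : α → Place ℂ F}
    (hR : Function.Injective R) {c : ∀ a, Chart (R a)} {θ : α → ℂ} (h : GoodParam c θ) (a : α) :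
    gsum R ((c a).w (θ a)) = if θ a = 0 then 1 else 0 := by
  split_ifs with h0
  · rw [((h.eq_base_iff a a).mpr ⟨rfl, h0⟩), gsum_apply_of_injective hR]
  · refine gsum_apply_of_ne fun b hb => h0 ?_
    exact ((h.eq_base_iff a b).mp hb.symm).2

/-- **the divisor of a section**: a nonzero `s ∈ L(∑ R a)` vanishing at all moved points has
divisor `∑ (moved points) - ∑ R a`. -/
theorem GoodParam.ord_eq {α : Type*} [Fintype α] {R : α → Place ℂ F}
    (hR : Function.Injective R) {c : ∀ a, Chart (R a)} {θ : α → ℂ} (h : GoodParam c θ) {s : F}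
    (hs : s ≠ 0) (hsB : s ∈ riemannRochSpace (gsum R))
    (hval : ∀ a, val ((c a).w (θ a)) (s * (c a).t) = 0) (v : Place ℂ F) :
    v.ord s = gsum (fun a => (c a).w (θ a)) v - gsum R v := by
  rw [mem_riemannRochSpace_iff] at hsB
  have hord : ∀ v : Place ℂ F, - gsum R v ≤ v.ord s := fun v => (hsB v).resolve_left hs
  refine ord_eq_of_mem_riemannRochSpace (by rw [degree_gsum, degree_gsum]) hs (fun v => ?_) v
  by_cases hv : ∃ a, (c a).w (θ a) = v
  · obtain ⟨a, rfl⟩ := hv
    rw [gsum_apply_of_injective h.injective a]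
    exact (((h.good a).val_mul_t hs (h.gsum_apply hR a) (hord _)).2).mp (hval a)
  · push Not at hv
    rw [gsum_apply_of_ne hv, zero_sub]
    exact hord v

end Div

end Fermat.Agent.S27
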